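import Mathlib

/-!
# S13 library (Comp 1): exact characteristic-free `(ξ, η)`-calculus centred at a 2-torsion point

`W` is a general Weierstrass curve over a field `F` (no assumption on the characteristic),
`T = (e, yT)` a point of `W` with `2 yT + a₁ e + a₃ = 0` (a 2-torsion point).  With
`ξ = x - e`, `η = y - yT`, `A₂ = 3e + a₂`, `A₄ = 3e² + 2a₂e + a₄ - a₁yT` the equation of `W` reads
`η² + a₁ ξ η = ξ³ + A₂ ξ² + A₄ ξ` and, for the Mathlib group law,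

`ξ(P₁ + P₂) · (η₁ ξ₂ + η₂ ξ₁ + a₁ ξ₁ ξ₂)² = ξ₁ ξ₂ (ξ₁ ξ₂ - A₄)²`   (chord and tangent),
`ξ(P + T) · ξ(P) = A₄`,  `η(P + T) ξ(P) = -(η(P) + a₁ ξ(P)) ξ(P + T)`.
-/

namespace Fermat.Agent.S13

open WeierstrassCurve WeierstrassCurve.Affine

variable {F : Type*} [Field F] {W : Affine F}

/-- The coefficient `A₂` of the translated model. -/
def twA (W : Affine F) (e : F) : F := 3 * e + W.a₂

/-- The coefficient `A₄` of the translated model. -/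
def twB (W : Affine F) (e yT : F) : F := 3 * e ^ 2 + 2 * W.a₂ * e + W.a₄ - W.a₁ * yT

/-- The numerator `η₁ ξ₂ + η₂ ξ₁ + a₁ ξ₁ ξ₂`. -/
def twN (W : Affine F) (e yT x₁ y₁ x₂ y₂ : F) : F :=
  (y₁ - yT) * (x₂ - e) + (y₂ - yT) * (x₁ - e) + W.a₁ * ((x₁ - e) * (x₂ - e))

/-- The translated equation. -/
lemma tw_eqn {e yT : F} (hT : W.Equation e yT) (h2T : 2 * yT + W.a₁ * e + W.a₃ = 0) {x y : F}
    (h : W.Equation x y) :
    (y - yT) ^ 2 + W.a₁ * (x - e) * (y - yT) =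
      (x - e) ^ 3 + twA W e * (x - e) ^ 2 + twB W e yT * (x - e) := by
  rw [Affine.equation_iff] at h hT
  simp only [twA, twB]
  linear_combination h - hT - (y - yT) * h2T

/-- A point with `ξ = 0` has `η = 0`. -/
lemma tw_eta_eq_zero {e yT : F} (hT : W.Equation e yT) (h2T : 2 * yT + W.a₁ * e + W.a₃ = 0)
    {y : F} (h : W.Equation e y) : y = yT := by
  have := tw_eqn hT h2T h
  have h0 : (y - yT) ^ 2 = 0 := by
    rw [sub_self] at this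
    linear_combination this
  exact sub_eq_zero.mp (pow_eq_zero_iff two_ne_zero |>.mp h0)

/-- `T` is its own negative. -/
lemma tw_negY_T {e yT : F} (h2T : 2 * yT + W.a₁ * e + W.a₃ = 0) : W.negY e yT = yT := by
  rw [negY]; linear_combination -h2T

/-- `N` is symmetric. -/
lemma tw_N_comm (e yT x₁ y₁ x₂ y₂ : F) : twN W e yT x₁ y₁ x₂ y₂ = twN W e yT x₂ y₂ x₁ y₁ := by
  simp only [twN]; ring

variable [DecidableEq F]

/-- The exact formula, chord case. -/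
theorem tw_add_of_X_ne {e yT : F} (hT : W.Equation e yT) (h2T : 2 * yT + W.a₁ * e + W.a₃ = 0)
    {x₁ y₁ x₂ y₂ : F} (h₁ : W.Nonsingular x₁ y₁) (h₂ : W.Nonsingular x₂ y₂) (hx : x₁ ≠ x₂) :
    ∃ (x₃ y₃ : F) (h₃ : W.Nonsingular x₃ y₃),
      Point.some x₁ y₁ h₁ + Point.some x₂ y₂ h₂ = Point.some x₃ y₃ h₃ ∧
      (x₃ - e) * twN W e yT x₁ y₁ x₂ y₂ ^ 2 =
        (x₁ - e) * (x₂ - e) * ((x₁ - e) * (x₂ - e) - twB W e yT) ^ 2 := by
  refine ⟨_, _, nonsingular_add h₁ h₂ fun hxy => hx hxy.left, Point.add_of_X_ne hx, ?_⟩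
  rw [slope_of_X_ne hx]
  have hD : x₁ - x₂ ≠ 0 := sub_ne_zero.mpr hx
  have C₁ := tw_eqn hT h2T h₁.1
  have C₂ := tw_eqn hT h2T h₂.1
  -- abbreviations
  set ξ₁ := x₁ - e with hξ₁
  set ξ₂ := x₂ - e with hξ₂
  set η₁ := y₁ - yT with hη₁
  set η₂ := y₂ - yT with hη₂
  have hxx : x₁ - x₂ = ξ₁ - ξ₂ := by rw [hξ₁, hξ₂]; ring
  have hyy : y₁ - y₂ = η₁ - η₂ := by rw [hη₁, hη₂]; ring
  -- `ξ₃ = ℓ² + a₁ ℓ - A₂ - ξ₁ - ξ₂`
  have hξ₃ : (W.addX x₁ x₂ ((y₁ - y₂) / (x₁ - x₂)) - e) * (ξ₁ - ξ₂) ^ 2 =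
      (η₁ - η₂) ^ 2 + W.a₁ * (η₁ - η₂) * (ξ₁ - ξ₂) - (twA W e + ξ₁ + ξ₂) * (ξ₁ - ξ₂) ^ 2 := by
    rw [hyy, hxx]
    have hD' : ξ₁ - ξ₂ ≠ 0 := by rw [← hxx]; exact hD
    simp only [addX, twA]
    field_simp
    rw [hξ₁, hξ₂]
    ring
  -- (U1): `ξ₃ D² ξ₁ξ₂ = (η₁ξ₂ - η₂ξ₁)²`
  have hU1 : (W.addX x₁ x₂ ((y₁ - y₂) / (x₁ - x₂)) - e) * (ξ₁ - ξ₂) ^ 2 * (ξ₁ * ξ₂) =
      (η₁ * ξ₂ - η₂ * ξ₁) ^ 2 := by
    rw [hξ₃]
    linear_combination ((ξ₁ - ξ₂) * ξ₂) * C₁ - ((ξ₁ - ξ₂) * ξ₁) * C₂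
  -- (I2): `(η₁ξ₂ - η₂ξ₁) N = ξ₁ξ₂ (ξ₁-ξ₂)(ξ₁ξ₂ - A₄)`
  have hN : twN W e yT x₁ y₁ x₂ y₂ = η₁ * ξ₂ + η₂ * ξ₁ + W.a₁ * (ξ₁ * ξ₂) := rfl
  have hI2 : (η₁ * ξ₂ - η₂ * ξ₁) * twN W e yT x₁ y₁ x₂ y₂ =
      ξ₁ * ξ₂ * (ξ₁ - ξ₂) * (ξ₁ * ξ₂ - twB W e yT) := by
    rw [hN]
    linear_combination (ξ₂ ^ 2) * C₁ - (ξ₁ ^ 2) * C₂
  by_cases hξ : ξ₁ * ξ₂ = 0
  · -- degenerate: one of the points is `T`; then `N = 0`
    have hN0 : twN W e yT x₁ y₁ x₂ y₂ = 0 := by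
      rcases mul_eq_zero.mp hξ with h | h
      · have : η₁ ^ 2 = 0 := by rw [h] at C₁; linear_combination C₁
        have h' : η₁ = 0 := pow_eq_zero_iff two_ne_zero |>.mp this
        rw [hN, h, h']; ring
      · have : η₂ ^ 2 = 0 := by rw [h] at C₂; linear_combination C₂
        have h' : η₂ = 0 := pow_eq_zero_iff two_ne_zero |>.mp this
        rw [hN, h, h']; ring
    rw [hN0, hξ]; ring
  · have hD' : ξ₁ - ξ₂ ≠ 0 := by rw [← hxx]; exact hD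
    have hcancel : (ξ₁ - ξ₂) ^ 2 * (ξ₁ * ξ₂) ≠ 0 := mul_ne_zero (pow_ne_zero 2 hD') hξ
    apply mul_left_cancel₀ hcancel
    have e1 : (ξ₁ - ξ₂) ^ 2 * (ξ₁ * ξ₂) *
        ((W.addX x₁ x₂ ((y₁ - y₂) / (x₁ - x₂)) - e) * twN W e yT x₁ y₁ x₂ y₂ ^ 2) =
        ((η₁ * ξ₂ - η₂ * ξ₁) * twN W e yT x₁ y₁ x₂ y₂) ^ 2 := by
      rw [mul_pow, ← hU1]; ring
    rw [e1, hI2]; ring

/-- The exact formula, tangent case. -/
theorem tw_two_nsmul {e yT : F} (hT : W.Equation e yT) (h2T : 2 * yT + W.a₁ * e + W.a₃ = 0)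
    {x y : F} (h : W.Nonsingular x y) (hy : y ≠ W.negY x y) :
    ∃ (x₃ y₃ : F) (h₃ : W.Nonsingular x₃ y₃),
      Point.some x y h + Point.some x y h = Point.some x₃ y₃ h₃ ∧
      (x₃ - e) * (2 * (y - yT) + W.a₁ * (x - e)) ^ 2 = ((x - e) ^ 2 - twB W e yT) ^ 2 := by
  refine ⟨_, _, nonsingular_add h h fun hxy => hy hxy.right, Point.add_self_of_Y_ne hy, ?_⟩
  have C := tw_eqn hT h2T h.1
  have hZ : 2 * y + W.a₁ * x + W.a₃ = 2 * (y - yT) + W.a₁ * (x - e) := by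
    linear_combination h2T
  have hne : 2 * (y - yT) + W.a₁ * (x - e) ≠ 0 := by
    rw [← hZ]
    intro h0
    apply hy
    rw [negY]
    linear_combination h0
  have hM : 3 * x ^ 2 + 2 * W.a₂ * x + W.a₄ - W.a₁ * y =
      3 * (x - e) ^ 2 + 2 * twA W e * (x - e) + twB W e yT - W.a₁ * (y - yT) := by
    simp only [twA, twB]; ring
  have hsl : W.slope x x y y =
      (3 * (x - e) ^ 2 + 2 * twA W e * (x - e) + twB W e yT - W.a₁ * (y - yT)) /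
        (2 * (y - yT) + W.a₁ * (x - e)) := by
    rw [slope_of_Y_ne rfl hy, negY, ← hM, ← hZ]
    congr 1
    ring
  rw [hsl]
  have key : ∀ n t : F, t ≠ 0 →
      (W.addX x x (n / t) - e) * t ^ 2 =
        n ^ 2 + W.a₁ * n * t - (twA W e + 2 * (x - e)) * t ^ 2 := by
    intro n t ht
    simp only [addX, twA]
    field_simp
    ring
  rw [key _ _ hne]
  linear_combination (-(W.a₁ ^ 2 + 4 * twA W e + 8 * (x - e))) * C

/-- **The exact `ξ`-addition formula** (chord and tangent, any characteristic): if `P₁ + P₂ ≠ 0`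
then `ξ(P₁+P₂) N² = ξ₁ξ₂ (ξ₁ξ₂ - A₄)²` with `N = η₁ξ₂ + η₂ξ₁ + a₁ξ₁ξ₂`. -/
theorem tw_add {e yT : F} (hT : W.Equation e yT) (h2T : 2 * yT + W.a₁ * e + W.a₃ = 0)
    {x₁ y₁ x₂ y₂ : F} (h₁ : W.Nonsingular x₁ y₁) (h₂ : W.Nonsingular x₂ y₂)
    (hxy : ¬(x₁ = x₂ ∧ y₁ = W.negY x₂ y₂)) :
    ∃ (x₃ y₃ : F) (h₃ : W.Nonsingular x₃ y₃),
      Point.some x₁ y₁ h₁ + Point.some x₂ y₂ h₂ = Point.some x₃ y₃ h₃ ∧
      (x₃ - e) * twN W e yT x₁ y₁ x₂ y₂ ^ 2 =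
        (x₁ - e) * (x₂ - e) * ((x₁ - e) * (x₂ - e) - twB W e yT) ^ 2 := by
  by_cases hx : x₁ = x₂
  · have hy : y₁ ≠ W.negY x₂ y₂ := fun hy => hxy ⟨hx, hy⟩
    have hyy : y₁ = y₂ := Y_eq_of_Y_ne h₁.1 h₂.1 hx hy
    subst hx; subst hyy
    obtain ⟨x₃, y₃, h₃, e3, hf⟩ := tw_two_nsmul hT h2T h₁ hy
    refine ⟨x₃, y₃, h₃, e3, ?_⟩
    simp only [twN]
    linear_combination ((x₁ - e) ^ 2) * hf
  · exact tw_add_of_X_ne hT h2T h₁ h₂ hx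

omit [DecidableEq F] in
/-- The `ξ`-part of the translation identity. -/
lemma tw_addX_T {e yT x y : F} (hT : W.Equation e yT) (h2T : 2 * yT + W.a₁ * e + W.a₃ = 0)
    (h : W.Equation x y) (hx : x ≠ e) :
    (W.addX x e ((y - yT) / (x - e)) - e) * (x - e) = twB W e yT := by
  have hD : x - e ≠ 0 := sub_ne_zero.mpr hx
  have C := tw_eqn hT h2T h
  simp only [addX]
  simp only [twA] at C
  field_simp
  linear_combination C

omit [DecidableEq F] in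
/-- The `η`-part of the translation identity. -/
lemma tw_addY_T {e yT x y : F} (h2T : 2 * yT + W.a₁ * e + W.a₃ = 0) (hx : x ≠ e) :
    (W.addY x e y ((y - yT) / (x - e)) - yT) * (x - e) =
      -(((y - yT) + W.a₁ * (x - e)) * (W.addX x e ((y - yT) / (x - e)) - e)) := by
  have hD : x - e ≠ 0 := sub_ne_zero.mpr hx
  simp only [addY, negAddY, negY]
  generalize W.addX x e ((y - yT) / (x - e)) = X
  field_simp
  linear_combination (-(x - e)) * h2T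

/-- **Translation by the 2-torsion point** `T`: `ξ' ξ = A₄`, `η' ξ = -(η + a₁ ξ) ξ'`. -/
theorem tw_add_T {e yT x y : F} (hT : W.Nonsingular e yT)
    (h2T : 2 * yT + W.a₁ * e + W.a₃ = 0) (h : W.Nonsingular x y) (hx : x ≠ e) :
    ∃ (x' y' : F) (h' : W.Nonsingular x' y'),
      Point.some x y h + Point.some e yT hT = Point.some x' y' h' ∧
      (x' - e) * (x - e) = twB W e yT ∧
      (y' - yT) * (x - e) = -(((y - yT) + W.a₁ * (x - e)) * (x' - e)) := by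
  refine ⟨_, _, nonsingular_add h hT fun hxy => hx hxy.left, Point.add_of_X_ne hx, ?_, ?_⟩
  · rw [slope_of_X_ne hx]
    exact tw_addX_T hT.1 h2T h.1 hx
  · rw [slope_of_X_ne hx]
    exact tw_addY_T h2T hx

/-- `T + T = 0`. -/
lemma tw_T_add_T {e yT : F} (hT : W.Nonsingular e yT)
    (h2T : 2 * yT + W.a₁ * e + W.a₃ = 0) :
    Point.some e yT hT + Point.some e yT hT = 0 :=
  Point.add_self_of_Y_eq (tw_negY_T h2T).symm

omit [DecidableEq F] in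
/-- `η(-P) = -(η(P) + a₁ ξ(P))`. -/
lemma tw_negY {e yT : F} (h2T : 2 * yT + W.a₁ * e + W.a₃ = 0) (x y : F) :
    W.negY x y - yT = -((y - yT) + W.a₁ * (x - e)) := by
  rw [negY]; linear_combination -h2T

end Fermat.Agent.S13
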