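import Fermat.Agent.S13.Comp.Hom

/-!
# S13 library (Comp 4): consequences of the component homomorphism (any residue characteristic)

* `twC_eq_one_iff` : the kernel of `twC` is `E₀ = {O} ∪ {1 ≤ v (x - e)}`.
* `tw_M1` : `n • P = 0`, `v A₄ < v ξ < 1` ⟹ `∃ m : ℤ, v ξ ^ n = v A₄ ^ (2m)`.
* `tw_M2` : same level ⟹ sum or difference in `E₀`.
* `tw_not_T_of_odd` : points with `v ξ ≤ v A₄` are not killed by an odd integer.
* `tw_E0_of_rational` : torsion points of order prime to `2N` with "rational" `ξ`-valuation lie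
  in `E₀` (`v A₄ = γ ^ N`, `v ξ ∈ γ ^ ℤ`).
* `twC_sigma`, `tw_sigma_sub_mem_E0` : invariance under valuation-preserving automorphisms which
  preserve the branch `τ` modulo the maximal ideal.
-/

namespace Fermat.Agent.S13

open WeierstrassCurve WeierstrassCurve.Affine Fermat.Agent.S05

variable {F : Type*} [Field F] {Γ₀ : Type*} [LinearOrderedCommGroupWithZero Γ₀]
  {v : Valuation F Γ₀} {W : Affine F} {e yT τ : F}

/-- The class `[v b]` is not trivial. -/
lemma tw_trK_b_ne_one {b : F} (hb0 : b ≠ 0) (hb : v b < 1) : trK v b b ≠ 1 := by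
  intro h
  obtain ⟨m, hm⟩ := trK_pow_eq_one v hb0 hb0 (n := 1) (by rw [pow_one]; exact h)
  rw [pow_one] at hm
  have hpos : 0 < v b := zero_lt_iff.mpr ((v.ne_zero_iff).mpr hb0)
  rcases tr_zpow_cases hpos hb m with h1 | h1
  · rw [← hm] at h1
    exact absurd hb (not_lt.mpr h1)
  · rw [← hm] at h1
    exact lt_irrefl _ h1

/-- The kernel of the component map is contained in `E₀`. -/
theorem twC_eq_one (H : TwHyp v W e yT τ) {P : W.Point} (h : twC v W e yT τ P = 1) :
    P = 0 ∨ ∃ (x y : F) (hh : W.Nonsingular x y), P = Point.some x y hh ∧ 1 ≤ v (x - e) := by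
  rcases P with _ | ⟨x, y, hh⟩
  · left; rfl
  · right
    refine ⟨x, y, hh, rfl, ?_⟩
    by_contra hE
    by_cases hT : v (x - e) ≤ v (twB W e yT)
    · rw [twC_T H hh hT] at h
      exact tw_trK_b_ne_one H.b_ne H.b_lt h
    · rw [not_le] at hE hT
      have hx := tr_ne_of_lt hT
      have hk : trK v (twB W e yT) (x - e) = 1 := by
        rcases twC_N_or (τ := τ) hh hT hE with hk | hk
        · rw [← hk]; exact h
        · rw [← inv_inv (trK v (twB W e yT) (x - e)), ← hk, h, inv_one]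
      obtain ⟨m, hm⟩ := trK_pow_eq_one v (sub_ne_zero.mpr hx) H.b_ne (n := 1)
        (by rw [pow_one]; exact hk)
      rw [pow_one] at hm
      rcases tr_zpow_cases H.b_pos H.b_lt m with h1 | h1
      · rw [← hm] at h1
        exact absurd hE (not_lt.mpr h1)
      · rw [← hm] at h1
        exact absurd hT (not_lt.mpr (le_of_lt h1))

/-- The kernel of the component map is `E₀`. -/
theorem twC_eq_one_iff (H : TwHyp v W e yT τ) (P : W.Point) :
    twC v W e yT τ P = 1 ↔
      (P = 0 ∨ ∃ (x y : F) (hh : W.Nonsingular x y), P = Point.some x y hh ∧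
        1 ≤ v (x - e)) := by
  refine ⟨twC_eq_one H, ?_⟩
  rintro (rfl | ⟨x, y, hh, rfl, hE⟩)
  · exact twC_zero
  · exact twC_E hh hE

variable [DecidableEq F]

/-- **(M1)** in any residue characteristic. -/
theorem tw_M1 (H : TwHyp v W e yT τ) {n : ℕ} {x y : F} (h : W.Nonsingular x y)
    (hn : n • (Point.some x y h : W.Point) = 0)
    (h1 : v (twB W e yT) < v (x - e)) (h2 : v (x - e) < 1) :
    ∃ m : ℤ, v (x - e) ^ n = v (twB W e yT) ^ (2 * m) := by
  have hc := twC_nsmul H n (Point.some x y h)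
  rw [hn, twC_zero] at hc
  have hx := tr_ne_of_lt h1
  apply trK_pow_eq_one v (sub_ne_zero.mpr hx) H.b_ne
  rcases twC_N_or (τ := τ) h h1 h2 with hk | hk
  · rw [hk] at hc; exact hc.symm
  · rw [hk, inv_pow] at hc
    rw [← inv_inv (trK v (twB W e yT) (x - e) ^ n), ← hc, inv_one]

/-- **(M2)** in any residue characteristic. -/
theorem tw_M2 (H : TwHyp v W e yT τ) {x y x' y' : F} (h : W.Nonsingular x y)
    (h' : W.Nonsingular x' y')
    (h1 : v (twB W e yT) < v (x - e)) (h2 : v (x - e) < 1) (heq : v (x' - e) = v (x - e)) :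
    ∃ Rp : W.Point,
      (Rp = Point.some x y h - Point.some x' y' h' ∨
        Rp = Point.some x y h + Point.some x' y' h') ∧
      (Rp = 0 ∨ ∃ (X Y : F) (HH : W.Nonsingular X Y), Rp = Point.some X Y HH ∧
        1 ≤ v (X - e)) := by
  have hx := tr_ne_of_lt h1
  have h1' : v (twB W e yT) < v (x' - e) := by rw [heq]; exact h1
  have h2' : v (x' - e) < 1 := by rw [heq]; exact h2
  have hx' := tr_ne_of_lt h1'
  have hk : trK v (twB W e yT) (x' - e) = trK v (twB W e yT) (x - e) :=
    trK_eq_of_val_eq v _ (sub_ne_zero.mpr hx') (sub_ne_zero.mpr hx) heq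
  rcases twC_N_or (τ := τ) h h1 h2 with c1 | c1 <;>
    rcases twC_N_or (τ := τ) h' h1' h2' with c2 | c2
  · refine ⟨_, Or.inl rfl, twC_eq_one H ?_⟩
    rw [twC_sub H, c1, c2, hk, mul_inv_cancel]
  · refine ⟨_, Or.inr rfl, twC_eq_one H ?_⟩
    rw [twC_add H, c1, c2, hk, mul_inv_cancel]
  · refine ⟨_, Or.inr rfl, twC_eq_one H ?_⟩
    rw [twC_add H, c1, c2, hk, inv_mul_cancel]
  · refine ⟨_, Or.inl rfl, twC_eq_one H ?_⟩
    rw [twC_sub H, c1, c2, hk, inv_inv, inv_mul_cancel]

omit [DecidableEq F] in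
/-- An element of order two raised to an odd power. -/
lemma tw_pow_odd {G : Type*} [Group G] {g : G} (h : g * g = 1) (k : ℕ) :
    g ^ (2 * k + 1) = g := by
  rw [pow_succ, pow_mul, pow_two, h, one_pow, one_mul]

/-- Points on the node side (`v ξ ≤ v A₄`) are not killed by an odd integer. -/
theorem tw_not_T_of_odd (H : TwHyp v W e yT τ) {n : ℕ} (hn : Odd n) {x y : F}
    (h : W.Nonsingular x y) (hT : v (x - e) ≤ v (twB W e yT)) :
    n • (Point.some x y h : W.Point) ≠ 0 := by
  intro h0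
  have hc := twC_nsmul H n (Point.some x y h)
  rw [h0, twC_zero, twC_T H h hT] at hc
  obtain ⟨k, rfl⟩ := hn
  rw [tw_pow_odd (trK_b_mul_self v (twB W e yT)) k] at hc
  exact tw_trK_b_ne_one H.b_ne H.b_lt hc.symm

/-- A torsion point of order prime to `2N` whose `ξ`-valuation is "rational"
(`v A₄ = γ ^ N`, `v ξ = γ ^ j`) lies in `E₀`. -/
theorem tw_E0_of_rational (H : TwHyp v W e yT τ) {γ : Γ₀} (hγ0 : 0 < γ) (hγ1 : γ < 1)
    {N : ℕ} (hN : v (twB W e yT) = γ ^ N) {n : ℕ} (hn : Nat.Coprime n (2 * N))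
    {x y : F} (h : W.Nonsingular x y) (hP : n • (Point.some x y h : W.Point) = 0)
    {j : ℤ} (hj : v (x - e) = γ ^ j) : 1 ≤ v (x - e) := by
  have hodd : Odd n := by
    rcases Nat.even_or_odd n with he | ho
    · exfalso
      have h2 : 2 ∣ Nat.gcd n (2 * N) := Nat.dvd_gcd he.two_dvd (dvd_mul_right 2 N)
      rw [hn] at h2
      exact absurd h2 (by norm_num)
    · exact ho
  by_contra hE
  rw [not_le] at hE
  by_cases hT : v (x - e) ≤ v (twB W e yT)
  · exact tw_not_T_of_odd H hodd h hT hP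
  · rw [not_le] at hT
    obtain ⟨m, hm⟩ := tw_M1 H h hP hT hE
    rw [hj, hN] at hm
    -- `γ ^ (j * n) = γ ^ (N * (2 * m))`
    have hγne : γ ≠ 0 := ne_of_gt hγ0
    have e1 : (γ ^ j) ^ n = γ ^ (j * (n : ℤ)) := by
      rw [zpow_mul, zpow_natCast]
    have e2 : (γ ^ N) ^ (2 * m) = γ ^ ((N : ℤ) * (2 * m)) := by
      rw [← zpow_natCast γ N, ← zpow_mul]
    rw [e1, e2] at hm
    have hinj : j * (n : ℤ) = (N : ℤ) * (2 * m) := by
      by_contra hne
      rcases lt_or_gt_of_ne hne with hlt | hgt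
      · have : γ ^ ((N : ℤ) * (2 * m)) < γ ^ (j * (n : ℤ)) :=
          zpow_lt_zpow_right_of_lt_one₀ hγ0 hγ1 hlt
        rw [hm] at this
        exact lt_irrefl _ this
      · have : γ ^ (j * (n : ℤ)) < γ ^ ((N : ℤ) * (2 * m)) :=
          zpow_lt_zpow_right_of_lt_one₀ hγ0 hγ1 hgt
        rw [hm] at this
        exact lt_irrefl _ this
    -- `n ∣ m`
    have hcop : IsCoprime (n : ℤ) ((2 * N : ℕ) : ℤ) := Nat.isCoprime_iff_coprime.mpr hn
    have hdvd : (n : ℤ) ∣ ((2 * N : ℕ) : ℤ) * m := by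
      refine ⟨j, ?_⟩
      push_cast
      linear_combination -hinj
    obtain ⟨m', rfl⟩ := hcop.dvd_of_dvd_mul_left hdvd
    have hnpos : (n : ℤ) ≠ 0 := by
      intro h0
      have : n = 0 := by exact_mod_cast h0
      subst this
      rw [Nat.coprime_zero_left] at hn
      omega
    have hj' : j = (N : ℤ) * (2 * m') := by
      apply mul_right_cancel₀ hnpos
      rw [hinj]; ring
    -- `v ξ = v b ^ (2 m')`, impossible in the annulus
    have hξ : v (x - e) = v (twB W e yT) ^ (2 * m') := by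
      rw [hj, hN, hj', ← zpow_natCast γ N, ← zpow_mul]
    rcases tr_zpow_cases H.b_pos H.b_lt m' with h1 | h1
    · rw [← hξ] at h1
      exact absurd hE (not_lt.mpr h1)
    · rw [← hξ] at h1
      exact absurd hT (not_lt.mpr (le_of_lt h1))

/-! ### Invariance under automorphisms preserving the valuation and the branch -/

omit [DecidableEq F] in
/-- The class of a point is invariant under a valuation-preserving field automorphism fixing
`e`, `yT` and preserving the branch `τ` modulo the maximal ideal. -/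
theorem twC_sigma (H : TwHyp v W e yT τ) (σ : F ≃+* F) (hv : ∀ z, v (σ z) = v z)
    (he : σ e = e) (hyT : σ yT = yT) (hτ : v (σ τ - τ) < 1) {x y : F}
    (h : W.Nonsingular x y) (h' : W.Nonsingular (σ x) (σ y)) :
    twC v W e yT τ (Point.some (σ x) (σ y) h') = twC v W e yT τ (Point.some x y h) := by
  have hξ : v (σ x - e) = v (x - e) := by
    have : σ x - e = σ (x - e) := by rw [map_sub, he]
    rw [this, hv]
  by_cases hE : 1 ≤ v (x - e)
  · rw [twC_E h hE, twC_E h' (by rw [hξ]; exact hE)]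
  by_cases hT : v (x - e) ≤ v (twB W e yT)
  · rw [twC_T H h hT, twC_T H h' (by rw [hξ]; exact hT)]
  · rw [not_le] at hE hT
    have hw : twW e yT (σ x) (σ y) = σ (twW e yT x y) := by
      simp only [twW, map_div₀, map_sub, he, hyT]
    have hsplit : twW e yT (σ x) (σ y) - τ = σ (twW e yT x y - τ) + (σ τ - τ) := by
      rw [hw, map_sub]; ring
    have hx := tr_ne_of_lt hT
    have hx' : σ x ≠ e := tr_ne_of_lt (b := twB W e yT) (by rw [hξ]; exact hT)
    have hk : trK v (twB W e yT) (σ x - e) = trK v (twB W e yT) (x - e) :=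
      trK_eq_of_val_eq v _ (sub_ne_zero.mpr hx') (sub_ne_zero.mpr hx) hξ
    rcases tw_sign_pt H h hT hE with ⟨s1, -⟩ | ⟨-, s2⟩
    · have s1' : v (twW e yT (σ x) (σ y) - τ) < 1 := by
        rw [hsplit]
        exact Valuation.map_add_lt _ (by rw [hv]; exact s1) hτ
      rw [twC_Np h hT hE s1,
        twC_Np h' (by rw [hξ]; exact hT) (by rw [hξ]; exact hE) s1', hk]
    · have s2' : v (twW e yT (σ x) (σ y) - τ) = 1 := by
        rw [hsplit, Valuation.map_add_eq_of_lt_left _ (by rw [hv, s2]; exact hτ), hv, s2]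
      rw [twC_Nm h hT hE (by rw [s2]; exact lt_irrefl _),
        twC_Nm h' (by rw [hξ]; exact hT) (by rw [hξ]; exact hE)
          (by rw [s2']; exact lt_irrefl _), hk]

/-- For such an automorphism, `σP - P ∈ E₀`. -/
theorem tw_sigma_sub_mem_E0 (H : TwHyp v W e yT τ) (σ : F ≃+* F) (hv : ∀ z, v (σ z) = v z)
    (he : σ e = e) (hyT : σ yT = yT) (hτ : v (σ τ - τ) < 1) {x y : F}
    (h : W.Nonsingular x y) (h' : W.Nonsingular (σ x) (σ y)) :
    (Point.some (σ x) (σ y) h' - Point.some x y h : W.Point) = 0 ∨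
      ∃ (X Y : F) (HH : W.Nonsingular X Y),
        (Point.some (σ x) (σ y) h' - Point.some x y h : W.Point) = Point.some X Y HH ∧
        1 ≤ v (X - e) := by
  apply twC_eq_one H
  rw [twC_sub H, twC_sigma H σ hv he hyT hτ h h', mul_inv_cancel]

end Fermat.Agent.S13
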