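import Mathlib

/-!
# S13 library (Comp 2): tropical leaves in arbitrary residue characteristic

Pure valuation statements (no elliptic curves).  `ξ₃ (ξ₁ξ₂) (w₁+w₂+a₁)² = (ξ₁ξ₂ - b)²` is the
addition formula in the coordinates `ξ = x - e`, `w = η / ξ`, `w² + a₁ w = ξ + A + b/ξ`; `τ` is a
root of `τ² + a₁ τ ≡ A` modulo the maximal ideal, the other root is `-τ - a₁`, and the two roots
are distinct modulo the maximal ideal: `v (2τ + a₁) = 1`.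
-/

set_option autoImplicit false
set_option linter.unusedVariables false

namespace Fermat.Agent.S13

variable {F : Type*} [Field F] {Γ₀ : Type*} [LinearOrderedCommGroupWithZero Γ₀]
  (v : Valuation F Γ₀) {a₁ A b τ ξ₁ ξ₂ ξ₃ w₁ w₂ : F}

/-- `τ` is integral. -/
lemma twl_val_tau (ha₁ : v a₁ ≤ 1) (hA : v A ≤ 1) (hτ : v (τ ^ 2 + a₁ * τ - A) < 1) :
    v τ ≤ 1 := by
  by_contra hcon
  rw [not_le] at hcon
  have h1 : v (τ + a₁) = v τ :=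
    Valuation.map_add_eq_of_lt_left _ (lt_of_le_of_lt ha₁ hcon)
  have h2 : v (τ ^ 2 + a₁ * τ) = v τ * v τ := by
    have : τ ^ 2 + a₁ * τ = τ * (τ + a₁) := by ring
    rw [this, map_mul, h1]
  have h3 : v (τ ^ 2 + a₁ * τ) ≤ 1 := by
    have : τ ^ 2 + a₁ * τ = A + (τ ^ 2 + a₁ * τ - A) := by ring
    rw [this]
    exact Valuation.map_add_le _ hA hτ.le
  rw [h2] at h3
  have : 1 < v τ * v τ := by
    calc (1 : Γ₀) < v τ := hcon
      _ = v τ * 1 := (mul_one _).symm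
      _ ≤ v τ * v τ := mul_le_mul' le_rfl hcon.le
  exact absurd h3 (not_le.mpr this)

/-- `τ + a₁` is integral. -/
lemma twl_val_tau' (ha₁ : v a₁ ≤ 1) (hA : v A ≤ 1) (hτ : v (τ ^ 2 + a₁ * τ - A) < 1) :
    v (τ + a₁) ≤ 1 :=
  Valuation.map_add_le _ (twl_val_tau v ha₁ hA hτ) ha₁

/-- For `1 ≤ v ξ` and `w² + a₁ w = ξ + A + b/ξ`: `v w ^ 2 ≤ v ξ`. -/
lemma twl_sq_le (ha₁ : v a₁ ≤ 1) (hA : v A ≤ 1) (hb : v b < 1) {ξ w : F}
    (hw : w ^ 2 + a₁ * w = ξ + A + b / ξ) (h1 : 1 ≤ v ξ) : v w ^ 2 ≤ v ξ := by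
  have hξ0 : v ξ ≠ 0 := ne_of_gt (lt_of_lt_of_le zero_lt_one h1)
  have hR : v (ξ + A + b / ξ) ≤ v ξ := by
    refine Valuation.map_add_le _ (Valuation.map_add_le _ le_rfl (hA.trans h1)) ?_
    rw [map_div₀]
    calc v b / v ξ ≤ v b :=
          (div_le_iff₀ (zero_lt_iff.mpr hξ0)).mpr (le_mul_of_one_le_right' h1)
      _ ≤ 1 := hb.le
      _ ≤ v ξ := h1
  rcases le_or_gt (v w) 1 with hle | hgt
  · calc v w ^ 2 ≤ 1 := pow_le_one' hle 2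
      _ ≤ v ξ := h1
  · have h1' : v (w + a₁) = v w :=
      Valuation.map_add_eq_of_lt_left _ (lt_of_le_of_lt ha₁ hgt)
    have : w ^ 2 + a₁ * w = w * (w + a₁) := by ring
    rw [← hw, this, map_mul, h1', ← pow_two] at hR
    exact hR

/-- The product of the two branch coordinates. -/
lemma twl_prod {ξ w : F} (hw : w ^ 2 + a₁ * w = ξ + A + b / ξ) :
    (w - τ) * (w + τ + a₁) = ξ + (b / ξ - (τ ^ 2 + a₁ * τ - A)) := by
  have : (w - τ) * (w + τ + a₁) = (w ^ 2 + a₁ * w) - (τ ^ 2 + a₁ * τ) := by ring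
  rw [this, hw]; ring

/-- **Sign dichotomy in the annulus**: `w ≡ τ` or `w ≡ -τ - a₁` (exclusively). -/
theorem tw_sign (hτ : v (τ ^ 2 + a₁ * τ - A) < 1) (hd : v (2 * τ + a₁) = 1)
    {ξ w : F} (hξ0 : ξ ≠ 0) (hw : w ^ 2 + a₁ * w = ξ + A + b / ξ) (hl : v b < v ξ)
    (hu : v ξ < 1) :
    (v (w - τ) < 1 ∧ v (w + τ + a₁) = 1) ∨ (v (w + τ + a₁) < 1 ∧ v (w - τ) = 1) := by
  have hξ0' : v ξ ≠ 0 := (Valuation.ne_zero_iff _).mpr hξ0
  have hbξ : v (b / ξ) < 1 := by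
    rw [map_div₀]
    exact (div_lt_one₀ (zero_lt_iff.mpr hξ0')).mpr hl
  have hprod : v ((w - τ) * (w + τ + a₁)) < 1 := by
    rw [twl_prod hw]
    refine Valuation.map_add_lt _ hu (Valuation.map_sub_lt _ hbξ hτ)
  rw [map_mul] at hprod
  by_cases h : v (w - τ) < 1
  · left
    refine ⟨h, ?_⟩
    have : w + τ + a₁ = (2 * τ + a₁) + (w - τ) := by ring
    rw [this, Valuation.map_add_eq_of_lt_left _ (by rw [hd]; exact h), hd]
  · right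
    rw [not_lt] at h
    have h' : v (w + τ + a₁) < 1 := by
      by_contra h''
      rw [not_lt] at h''
      have : 1 ≤ v (w - τ) * v (w + τ + a₁) := by simpa using mul_le_mul' h h''
      exact absurd hprod (not_lt.mpr this)
    refine ⟨h', ?_⟩
    have : w - τ = -(2 * τ + a₁) + (w + τ + a₁) := by ring
    rw [this, Valuation.map_add_eq_of_lt_left _ (by rw [Valuation.map_neg, hd]; exact h'),
      Valuation.map_neg, hd]

/-- Common consequence of `hU` when `v b < v (ξ₁ ξ₂)`. -/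
lemma twl_key (hU : ξ₃ * (ξ₁ * ξ₂) * (w₁ + w₂ + a₁) ^ 2 = (ξ₁ * ξ₂ - b) ^ 2)
    (h : v b < v ξ₁ * v ξ₂) : v ξ₃ * v (w₁ + w₂ + a₁) ^ 2 = v ξ₁ * v ξ₂ := by
  have hM0 : v ξ₁ * v ξ₂ ≠ 0 := ne_of_gt (lt_of_le_of_lt zero_le h)
  have hU' := congrArg v hU
  rw [map_mul, map_mul, map_pow, map_pow,
    Valuation.map_sub_eq_of_lt_left _ (by rw [map_mul]; exact h), map_mul] at hU'
  have : v ξ₃ * v (w₁ + w₂ + a₁) ^ 2 * (v ξ₁ * v ξ₂) = v ξ₁ * v ξ₂ * (v ξ₁ * v ξ₂) := by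
    rw [mul_right_comm, hU', pow_two]
  exact mul_right_cancel₀ hM0 this

/-- **Leaf EE**: `E₀ + E₀ ⊆ E₀`. -/
theorem tw_EE (ha₁ : v a₁ ≤ 1) (hA : v A ≤ 1) (hb : v b < 1)
    (hw1 : w₁ ^ 2 + a₁ * w₁ = ξ₁ + A + b / ξ₁) (hw2 : w₂ ^ 2 + a₁ * w₂ = ξ₂ + A + b / ξ₂)
    (hU : ξ₃ * (ξ₁ * ξ₂) * (w₁ + w₂ + a₁) ^ 2 = (ξ₁ * ξ₂ - b) ^ 2)
    (h1 : 1 ≤ v ξ₁) (h2' : 1 ≤ v ξ₂) : 1 ≤ v ξ₃ := by
  have h12 : 1 ≤ v ξ₁ * v ξ₂ := by simpa using mul_le_mul' h1 h2'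
  have hkey := twl_key v hU (lt_of_lt_of_le hb h12)
  have hM0 : v ξ₁ * v ξ₂ ≠ 0 := ne_of_gt (lt_of_lt_of_le zero_lt_one h12)
  have hT0 : v (w₁ + w₂ + a₁) ^ 2 ≠ 0 := by
    intro h0
    rw [h0, mul_zero] at hkey
    exact hM0 hkey.symm
  have hT : v (w₁ + w₂ + a₁) ^ 2 ≤ v ξ₁ * v ξ₂ := by
    rcases le_max_iff.mp (Valuation.map_add v (w₁ + w₂) a₁) with h | h
    · rcases le_max_iff.mp (Valuation.map_add v w₁ w₂) with h' | h'
      · calc v (w₁ + w₂ + a₁) ^ 2 ≤ v w₁ ^ 2 := pow_le_pow_left' (h.trans h') 2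
          _ ≤ v ξ₁ := twl_sq_le v ha₁ hA hb hw1 h1
          _ ≤ v ξ₁ * v ξ₂ := le_mul_of_one_le_right' h2'
      · calc v (w₁ + w₂ + a₁) ^ 2 ≤ v w₂ ^ 2 := pow_le_pow_left' (h.trans h') 2
          _ ≤ v ξ₂ := twl_sq_le v ha₁ hA hb hw2 h2'
          _ ≤ v ξ₁ * v ξ₂ := le_mul_of_one_le_left' h1
    · calc v (w₁ + w₂ + a₁) ^ 2 ≤ 1 := pow_le_one' (h.trans ha₁) 2
        _ ≤ v ξ₁ * v ξ₂ := h12
  by_contra hlt
  rw [not_le] at hlt
  have : v ξ₃ * v (w₁ + w₂ + a₁) ^ 2 < 1 * v (w₁ + w₂ + a₁) ^ 2 :=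
    mul_lt_mul_of_pos_right hlt (zero_lt_iff.mpr hT0)
  rw [one_mul, hkey] at this
  exact absurd hT (not_le.mpr this)

/-- **Leaf EN**: `E₀ + annulus` stays on the level of the annulus point. -/
theorem tw_EN (ha₁ : v a₁ ≤ 1) (hA : v A ≤ 1) (hτ : v (τ ^ 2 + a₁ * τ - A) < 1)
    (hd : v (2 * τ + a₁) = 1) (hb : v b < 1)
    (hw1 : w₁ ^ 2 + a₁ * w₁ = ξ₁ + A + b / ξ₁) (hw2 : w₂ ^ 2 + a₁ * w₂ = ξ₂ + A + b / ξ₂)
    (hU : ξ₃ * (ξ₁ * ξ₂) * (w₁ + w₂ + a₁) ^ 2 = (ξ₁ * ξ₂ - b) ^ 2)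
    (h1 : 1 ≤ v ξ₁) (h2l : v b < v ξ₂) (h2u : v ξ₂ < 1) (hs2 : v (w₂ - τ) < 1) :
    v ξ₃ = v ξ₂ := by
  have hξ1 : v ξ₁ ≠ 0 := ne_of_gt (lt_of_lt_of_le zero_lt_one h1)
  have hM : v b < v ξ₁ * v ξ₂ := lt_of_lt_of_le h2l (le_mul_of_one_le_left' h1)
  have hkey := twl_key v hU hM
  have hτ1 := twl_val_tau v ha₁ hA hτ
  have hτ1' := twl_val_tau' v ha₁ hA hτ
  have hbξ : v (b / ξ₁) < 1 := by
    rw [map_div₀]
    exact lt_of_le_of_lt
      ((div_le_iff₀ (zero_lt_iff.mpr hξ1)).mpr (le_mul_of_one_le_right' h1)) hb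
  have e' : w₁ + w₂ + a₁ = (w₁ + τ + a₁) + (w₂ - τ) := by ring
  have hT : v (w₁ + w₂ + a₁) ^ 2 = v ξ₁ := by
    rcases h1.lt_or_eq with hgt | heq
    · -- `v ξ₁ > 1`
      have hle : v (A + b / ξ₁) ≤ 1 := Valuation.map_add_le _ hA hbξ.le
      have hR : v (w₁ ^ 2 + a₁ * w₁) = v ξ₁ := by
        have e : w₁ ^ 2 + a₁ * w₁ = ξ₁ + (A + b / ξ₁) := by rw [hw1]; ring
        rw [e, Valuation.map_add_eq_of_lt_left _ (lt_of_le_of_lt hle hgt)]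
      have hw1v : 1 < v w₁ := by
        by_contra hcon
        rw [not_lt] at hcon
        have : v (w₁ ^ 2 + a₁ * w₁) ≤ 1 := by
          refine Valuation.map_add_le _ ?_ ?_
          · rw [map_pow]; exact pow_le_one' hcon 2
          · rw [map_mul]; exact mul_le_one' ha₁ hcon
        rw [hR] at this
        exact absurd hgt (not_lt.mpr this)
      have h1' : v (w₁ + a₁) = v w₁ :=
        Valuation.map_add_eq_of_lt_left _ (lt_of_le_of_lt ha₁ hw1v)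
      have hsq : v w₁ ^ 2 = v ξ₁ := by
        have : w₁ ^ 2 + a₁ * w₁ = w₁ * (w₁ + a₁) := by ring
        rw [← hR, this, map_mul, h1', pow_two]
      have h3 : v (w₁ + τ + a₁) = v w₁ := by
        have : w₁ + τ + a₁ = w₁ + (τ + a₁) := by ring
        rw [this, Valuation.map_add_eq_of_lt_left _ (lt_of_le_of_lt hτ1' hw1v)]
      rw [e', Valuation.map_add_eq_of_lt_left _ (by rw [h3]; exact hs2.trans hw1v), h3, hsq]
    · -- `v ξ₁ = 1`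
      have heq' : v ξ₁ = 1 := heq.symm
      have hsm : v (b / ξ₁ - (τ ^ 2 + a₁ * τ - A)) < 1 := Valuation.map_sub_lt _ hbξ hτ
      have hprod : v (w₁ - τ) * v (w₁ + τ + a₁) = 1 := by
        rw [← map_mul, twl_prod hw1,
          Valuation.map_add_eq_of_lt_left _ (by rw [heq']; exact hsm), heq']
      have hw1le : v w₁ ≤ 1 := by
        have hsq : v w₁ ^ 2 ≤ 1 := by
          have := twl_sq_le v ha₁ hA hb hw1 h1
          rwa [heq'] at this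
        by_contra hcon
        rw [not_le] at hcon
        have : 1 < v w₁ ^ 2 := one_lt_pow' hcon two_ne_zero
        exact absurd hsq (not_le.mpr this)
      have hm : v (w₁ - τ) ≤ 1 := Valuation.map_sub_le _ hw1le hτ1
      have hp : v (w₁ + τ + a₁) ≤ 1 := by
        have : w₁ + τ + a₁ = w₁ + (τ + a₁) := by ring
        rw [this]
        exact Valuation.map_add_le _ hw1le hτ1'
      have hp1 : v (w₁ + τ + a₁) = 1 := by
        rcases hp.lt_or_eq with hlt | h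
        · exfalso
          have : v (w₁ - τ) * v (w₁ + τ + a₁) < 1 := by
            calc v (w₁ - τ) * v (w₁ + τ + a₁) ≤ 1 * v (w₁ + τ + a₁) := mul_le_mul' hm le_rfl
              _ = v (w₁ + τ + a₁) := one_mul _
              _ < 1 := hlt
          rw [hprod] at this
          exact lt_irrefl _ this
        · exact h
      rw [e', Valuation.map_add_eq_of_lt_left _ (by rw [hp1]; exact hs2), hp1, one_pow, heq']
  rw [hT, mul_comm (v ξ₁)] at hkey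
  exact mul_right_cancel₀ hξ1 hkey

/-- **Leaf NN (same sign).** -/
theorem tw_NN (hd : v (2 * τ + a₁) = 1) (hb0 : b ≠ 0)
    (hU : ξ₃ * (ξ₁ * ξ₂) * (w₁ + w₂ + a₁) ^ 2 = (ξ₁ * ξ₂ - b) ^ 2)
    (h1b : v b < v ξ₁) (h2b : v b < v ξ₂)
    (hs1 : v (w₁ - τ) < 1) (hs2 : v (w₂ - τ) < 1) :
    (v b < v (ξ₁ * ξ₂) → v ξ₃ = v ξ₁ * v ξ₂) ∧
      (v (ξ₁ * ξ₂) < v b → v ξ₃ * (v ξ₁ * v ξ₂) = v b ^ 2) ∧
      (v (ξ₁ * ξ₂) = v b → v ξ₃ ≤ v b) := by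
  have ht : v (w₁ + w₂ + a₁) = 1 := by
    have : w₁ + w₂ + a₁ = (2 * τ + a₁) + ((w₁ - τ) + (w₂ - τ)) := by ring
    rw [this, Valuation.map_add_eq_of_lt_left _
      (by rw [hd]; exact Valuation.map_add_lt _ hs1 hs2), hd]
  have hU' : v ξ₃ * (v ξ₁ * v ξ₂) = v (ξ₁ * ξ₂ - b) ^ 2 := by
    have := congrArg v hU
    rw [map_mul, map_mul, map_pow, ht, one_pow, mul_one, map_pow, map_mul] at this
    exact this
  have hb0' : v b ≠ 0 := (Valuation.ne_zero_iff _).mpr hb0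
  have h1pos : v ξ₁ ≠ 0 := ne_of_gt (lt_of_le_of_lt zero_le h1b)
  have h2pos : v ξ₂ ≠ 0 := ne_of_gt (lt_of_le_of_lt zero_le h2b)
  have h12pos : v ξ₁ * v ξ₂ ≠ 0 := mul_ne_zero h1pos h2pos
  refine ⟨fun h => ?_, fun h => ?_, fun h => ?_⟩
  · rw [Valuation.map_sub_eq_of_lt_left _ h, map_mul, pow_two] at hU'
    exact mul_right_cancel₀ h12pos hU'
  · rw [Valuation.map_sub_eq_of_lt_right _ h] at hU'
    exact hU'
  · have hle : v (ξ₁ * ξ₂ - b) ≤ v b := Valuation.map_sub_le _ h.le le_rfl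
    rw [map_mul] at h
    rw [h] at hU'
    have h3 : v ξ₃ * v b ≤ v b * v b := by
      rw [hU', pow_two]
      exact mul_le_mul' hle hle
    exact le_of_mul_le_mul_right h3 (zero_lt_iff.mpr hb0')

end Fermat.Agent.S13
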