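import Fermat.Agent.S13.Comp.XW
import Fermat.Agent.S13.Comp.Leaf
import Fermat.Agent.S05.CompHom

/-!
# S13 library (Comp 3): the signed component homomorphism in arbitrary residue characteristic

`twC : W.Point → Γ₀ˣ ⧸ ⟨v(A₄)²⟩` for a Weierstrass curve with a node "at `T = (e, yT)`"
(`η² + a₁ ξ η = ξ³ + A₂ ξ² + A₄ ξ`, `v A₄ < 1`, two distinct tangent directions `τ`, `-τ - a₁`
modulo the maximal ideal).  No assumption on `v 2`.
-/

namespace Fermat.Agent.S13

open WeierstrassCurve WeierstrassCurve.Affine Fermat.Agent.S05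

variable {F : Type*} [Field F] {Γ₀ : Type*} [LinearOrderedCommGroupWithZero Γ₀]

/-! ### The `w`-coordinate `w = η / ξ` -/

/-- `w = (y - yT) / (x - e)`, the slope of the chord through `T` and `P`. -/
noncomputable def twW (e yT x y : F) : F := (y - yT) / (x - e)

section wcoord

variable {W : Affine F}

lemma tw_eta_eq {e yT x : F} (y : F) (hx : x ≠ e) : y - yT = (x - e) * twW e yT x y := by
  have hD : x - e ≠ 0 := sub_ne_zero.mpr hx
  simp only [twW]; field_simp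

lemma tw_W_negY {e yT x : F} (h2T : 2 * yT + W.a₁ * e + W.a₃ = 0) (y : F) (hx : x ≠ e) :
    twW e yT x (W.negY x y) = -twW e yT x y - W.a₁ := by
  have hD : x - e ≠ 0 := sub_ne_zero.mpr hx
  simp only [twW, tw_negY h2T]
  field_simp
  ring

lemma tw_W_sq {e yT x y : F} (hT : W.Equation e yT) (h2T : 2 * yT + W.a₁ * e + W.a₃ = 0)
    (h : W.Equation x y) (hx : x ≠ e) :
    twW e yT x y ^ 2 + W.a₁ * twW e yT x y =
      (x - e) + twA W e + twB W e yT / (x - e) := by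
  have hD : x - e ≠ 0 := sub_ne_zero.mpr hx
  have C := tw_eqn hT h2T h
  simp only [twW]
  field_simp
  linear_combination C

variable [DecidableEq F]

/-- The addition formula in `(ξ, w)`-form. -/
theorem tw_add_w {e yT : F} (hT : W.Equation e yT) (h2T : 2 * yT + W.a₁ * e + W.a₃ = 0)
    {x₁ y₁ x₂ y₂ : F} (h₁ : W.Nonsingular x₁ y₁) (h₂ : W.Nonsingular x₂ y₂)
    (hx₁ : x₁ ≠ e) (hx₂ : x₂ ≠ e) (hxy : ¬(x₁ = x₂ ∧ y₁ = W.negY x₂ y₂)) :
    ∃ (x₃ y₃ : F) (h₃ : W.Nonsingular x₃ y₃),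
      Point.some x₁ y₁ h₁ + Point.some x₂ y₂ h₂ = Point.some x₃ y₃ h₃ ∧
      (x₃ - e) * ((x₁ - e) * (x₂ - e)) * (twW e yT x₁ y₁ + twW e yT x₂ y₂ + W.a₁) ^ 2 =
        ((x₁ - e) * (x₂ - e) - twB W e yT) ^ 2 := by
  obtain ⟨x₃, y₃, h₃, hadd, hf⟩ := tw_add hT h2T h₁ h₂ hxy
  refine ⟨x₃, y₃, h₃, hadd, ?_⟩
  have hD₁ : x₁ - e ≠ 0 := sub_ne_zero.mpr hx₁
  have hD₂ : x₂ - e ≠ 0 := sub_ne_zero.mpr hx₂
  simp only [twN] at hf
  rw [tw_eta_eq y₁ hx₁, tw_eta_eq y₂ hx₂] at hf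
  have h4 : (x₁ - e) * (x₂ - e) ≠ 0 := mul_ne_zero hD₁ hD₂
  apply mul_left_cancel₀ h4
  linear_combination hf

/-- Translation by `T` in `(ξ, w)`-form: `ξ' ξ = A₄`, `w' = -w - a₁`. -/
theorem tw_add_T_w {e yT x y : F} (hT : W.Nonsingular e yT)
    (h2T : 2 * yT + W.a₁ * e + W.a₃ = 0) (hb : twB W e yT ≠ 0)
    (h : W.Nonsingular x y) (hx : x ≠ e) :
    ∃ (x' y' : F) (h' : W.Nonsingular x' y'),
      Point.some x y h + Point.some e yT hT = Point.some x' y' h' ∧
      (x' - e) * (x - e) = twB W e yT ∧ x' ≠ e ∧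
      twW e yT x' y' = -twW e yT x y - W.a₁ := by
  obtain ⟨x', y', h', hadd, hξ, hY⟩ := tw_add_T hT h2T h hx
  have hD : x - e ≠ 0 := sub_ne_zero.mpr hx
  have hD' : x' - e ≠ 0 := by
    intro h0; rw [h0, zero_mul] at hξ; exact hb hξ.symm
  refine ⟨x', y', h', hadd, hξ, sub_ne_zero.mp hD', ?_⟩
  simp only [twW]
  field_simp
  linear_combination hY

end wcoord

/-! ### Standing hypotheses and the component map -/

/-- The standing hypotheses: a node at `T = (e, yT)` with tangent directions `τ`, `-τ - a₁`. -/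
structure TwHyp (v : Valuation F Γ₀) (W : Affine F) (e yT τ : F) : Prop where
  pt : W.Equation e yT
  two_tors : 2 * yT + W.a₁ * e + W.a₃ = 0
  a1_le : v W.a₁ ≤ 1
  A_le : v (twA W e) ≤ 1
  b_ne : twB W e yT ≠ 0
  b_lt : v (twB W e yT) < 1
  tau : v (τ ^ 2 + W.a₁ * τ - twA W e) < 1
  disc : v (2 * τ + W.a₁) = 1

section comp

variable {v : Valuation F Γ₀} {W : Affine F} {e yT τ : F}

lemma TwHyp.nonsing (H : TwHyp v W e yT τ) : W.Nonsingular e yT := by
  rw [Affine.nonsingular_iff]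
  refine ⟨H.pt, Or.inl ?_⟩
  intro h
  apply H.b_ne
  simp only [twB]
  linear_combination -h

lemma TwHyp.b_pos (H : TwHyp v W e yT τ) : 0 < v (twB W e yT) :=
  zero_lt_iff.mpr ((v.ne_zero_iff).mpr H.b_ne)

open Classical in
/-- The signed component map. -/
noncomputable def twC (v : Valuation F Γ₀) (W : Affine F) (e yT τ : F) :
    W.Point → trG v (twB W e yT)
  | .zero => 1
  | .some x y _ =>
    if 1 ≤ v (x - e) then 1
    else if v (x - e) ≤ v (twB W e yT) then trK v (twB W e yT) (twB W e yT)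
    else if v (twW e yT x y - τ) < 1 then trK v (twB W e yT) (x - e)
    else (trK v (twB W e yT) (x - e))⁻¹

lemma twC_zero : twC v W e yT τ 0 = 1 := rfl

lemma twC_E {x y : F} (h : W.Nonsingular x y) (hE : 1 ≤ v (x - e)) :
    twC v W e yT τ (Point.some x y h) = 1 := by
  simp only [twC, hE, if_true]

lemma twC_T (H : TwHyp v W e yT τ) {x y : F} (h : W.Nonsingular x y)
    (hT : v (x - e) ≤ v (twB W e yT)) :
    twC v W e yT τ (Point.some x y h) = trK v (twB W e yT) (twB W e yT) := by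
  have hE : ¬ 1 ≤ v (x - e) := not_le.mpr (lt_of_le_of_lt hT H.b_lt)
  simp only [twC, hE, hT, if_true, if_false]

lemma twC_Np {x y : F} (h : W.Nonsingular x y)
    (h1 : v (twB W e yT) < v (x - e)) (h2 : v (x - e) < 1) (hs : v (twW e yT x y - τ) < 1) :
    twC v W e yT τ (Point.some x y h) = trK v (twB W e yT) (x - e) := by
  simp only [twC, not_le.mpr h2, not_le.mpr h1, hs, if_true, if_false]

lemma twC_Nm {x y : F} (h : W.Nonsingular x y)
    (h1 : v (twB W e yT) < v (x - e)) (h2 : v (x - e) < 1)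
    (hs : ¬ v (twW e yT x y - τ) < 1) :
    twC v W e yT τ (Point.some x y h) = (trK v (twB W e yT) (x - e))⁻¹ := by
  simp only [twC, not_le.mpr h2, not_le.mpr h1, hs, if_false]

lemma twC_N_or {x y : F} (h : W.Nonsingular x y)
    (h1 : v (twB W e yT) < v (x - e)) (h2 : v (x - e) < 1) :
    twC v W e yT τ (Point.some x y h) = trK v (twB W e yT) (x - e) ∨
      twC v W e yT τ (Point.some x y h) = (trK v (twB W e yT) (x - e))⁻¹ := by
  by_cases hs : v (twW e yT x y - τ) < 1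
  · exact Or.inl (twC_Np h h1 h2 hs)
  · exact Or.inr (twC_Nm h h1 h2 hs)

/-- The sign dichotomy at a point of the annulus. -/
lemma tw_sign_pt (H : TwHyp v W e yT τ) {x y : F} (h : W.Nonsingular x y)
    (h1 : v (twB W e yT) < v (x - e)) (h2 : v (x - e) < 1) :
    (v (twW e yT x y - τ) < 1 ∧ v (twW e yT x y + τ + W.a₁) = 1) ∨
      (v (twW e yT x y + τ + W.a₁) < 1 ∧ v (twW e yT x y - τ) = 1) := by
  have hx := tr_ne_of_lt h1
  exact tw_sign v H.tau H.disc (sub_ne_zero.mpr hx)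
    (tw_W_sq H.pt H.two_tors h.1 hx) h1 h2

/-- `v (-w - a₁ - τ) = v (w + τ + a₁)`. -/
lemma tw_val_flip (v : Valuation F Γ₀) (w a τ : F) : v (-w - a - τ) = v (w + τ + a) := by
  rw [← Valuation.map_neg]; congr 1; ring

variable [DecidableEq F]

/-- `c(-P) = c(P)⁻¹`. -/
theorem twC_neg (H : TwHyp v W e yT τ) (P : W.Point) :
    twC v W e yT τ (-P) = (twC v W e yT τ P)⁻¹ := by
  rcases P with _ | ⟨x, y, h⟩
  · show twC v W e yT τ (-0) = (twC v W e yT τ 0)⁻¹
    rw [neg_zero, twC_zero, inv_one]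
  · rw [Point.neg_some]
    by_cases hE : 1 ≤ v (x - e)
    · rw [twC_E _ hE, twC_E _ hE, inv_one]
    by_cases hT : v (x - e) ≤ v (twB W e yT)
    · rw [twC_T H _ hT, twC_T H _ hT, trK_b_inv]
    · rw [not_le] at hE hT
      have hx := tr_ne_of_lt hT
      rcases tw_sign_pt H h hT hE with ⟨h1, h2⟩ | ⟨h1, h2⟩
      · rw [twC_Np h hT hE h1, twC_Nm _ hT hE]
        rw [tw_W_negY H.two_tors y hx, tw_val_flip, h2]; exact lt_irrefl _
      · rw [twC_Nm h hT hE (by rw [h2]; exact lt_irrefl _), twC_Np _ hT hE, inv_inv]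
        rw [tw_W_negY H.two_tors y hx, tw_val_flip]; exact h1

/-- The 2-torsion point `T = (e, yT)` (the node side). -/
noncomputable def TwHyp.T (H : TwHyp v W e yT τ) : W.Point := Point.some e yT H.nonsing

lemma TwHyp.T_add_T (H : TwHyp v W e yT τ) : H.T + H.T = 0 :=
  tw_T_add_T H.nonsing H.two_tors

omit [DecidableEq F] in
lemma TwHyp.eq_T (H : TwHyp v W e yT τ) {y : F} (h : W.Nonsingular e y) :
    Point.some e y h = H.T := by
  have hy : y = yT := tw_eta_eq_zero H.pt H.two_tors h.1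
  subst hy
  rfl

omit [DecidableEq F] in
lemma twC_T0 (H : TwHyp v W e yT τ) :
    twC v W e yT τ H.T = trK v (twB W e yT) (twB W e yT) := by
  apply twC_T H
  rw [sub_self, map_zero]
  exact zero_le

/-- `c(R + T) = c(R) τ`, exactly. -/
theorem twC_add_T (H : TwHyp v W e yT τ) (R : W.Point) :
    twC v W e yT τ (R + H.T) = twC v W e yT τ R * trK v (twB W e yT) (twB W e yT) := by
  rcases R with _ | ⟨x, y, h⟩
  · show twC v W e yT τ (0 + H.T) = twC v W e yT τ 0 * _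
    rw [zero_add, twC_zero, one_mul, twC_T0]
  · by_cases hx : x = e
    · subst hx
      rw [H.eq_T h, H.T_add_T, twC_zero, twC_T0 H, trK_b_mul_self]
    · obtain ⟨x', y', h', hadd, hξ, hx', ht⟩ :=
        tw_add_T_w H.nonsing H.two_tors H.b_ne h hx
      have hD : x - e ≠ 0 := sub_ne_zero.mpr hx
      have hD' : x' - e ≠ 0 := sub_ne_zero.mpr hx'
      have hval : v (x' - e) * v (x - e) = v (twB W e yT) := by rw [← map_mul, hξ]
      have hpos : 0 < v (x - e) := zero_lt_iff.mpr ((v.ne_zero_iff).mpr hD)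
      have hpos' : 0 < v (x' - e) := zero_lt_iff.mpr ((v.ne_zero_iff).mpr hD')
      have hsum : Point.some x y h + H.T = Point.some x' y' h' := hadd
      rw [hsum]
      by_cases hE : 1 ≤ v (x - e)
      · rw [twC_E h hE, twC_T H h' (tr_aux_le hval hE), one_mul]
      by_cases hT : v (x - e) ≤ v (twB W e yT)
      · rw [twC_T H h hT, twC_E h' (tr_aux_ge hval hpos hT), trK_b_mul_self]
      · rw [not_le] at hE hT
        have h1' : v (twB W e yT) < v (x' - e) := tr_aux_gt hval hpos' hE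
        have h2' : v (x' - e) < 1 := tr_aux_lt hval hT
        have hk : trK v (twB W e yT) (x' - e) =
            trK v (twB W e yT) (twB W e yT) * (trK v (twB W e yT) (x - e))⁻¹ := by
          rw [eq_mul_inv_iff_mul_eq, ← trK_mul v _ hD' hD, hξ]
        rcases tw_sign_pt H h hT hE with ⟨s1, s2⟩ | ⟨s1, s2⟩
        · rw [twC_Np h hT hE s1,
            twC_Nm h' h1' h2' (by rw [ht, tw_val_flip, s2]; exact lt_irrefl _),
            hk, mul_inv, inv_inv, trK_b_inv, mul_comm]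
        · rw [twC_Nm h hT hE (by rw [s2]; exact lt_irrefl _),
            twC_Np h' h1' h2' (by rw [ht, tw_val_flip]; exact s1), hk, mul_comm]

/-! ### Reduction to "good" points -/

/-- "Good" points: `O`, points of `E₀`, and points of the annulus with sign `+`. -/
def TwGood (v : Valuation F Γ₀) (W : Affine F) (e yT τ : F) (P : W.Point) : Prop :=
  P = 0 ∨ ∃ (x y : F) (h : W.Nonsingular x y), P = Point.some x y h ∧
    (1 ≤ v (x - e) ∨
      (v (twB W e yT) < v (x - e) ∧ v (x - e) < 1 ∧ v (twW e yT x y - τ) < 1))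

/-- Every point is good or a good point plus `T`. -/
lemma tw_exists_good (H : TwHyp v W e yT τ) (P : W.Point) :
    ∃ P₀ : W.Point, TwGood v W e yT τ P₀ ∧ (P = P₀ ∨ P = P₀ + H.T) := by
  rcases P with _ | ⟨x, y, h⟩
  · exact ⟨0, Or.inl rfl, Or.inl rfl⟩
  · by_cases hE : 1 ≤ v (x - e)
    · exact ⟨_, Or.inr ⟨x, y, h, rfl, Or.inl hE⟩, Or.inl rfl⟩
    by_cases hs : v (twB W e yT) < v (x - e) ∧ v (twW e yT x y - τ) < 1
    · exact ⟨_, Or.inr ⟨x, y, h, rfl, Or.inr ⟨hs.1, not_le.mp hE, hs.2⟩⟩, Or.inl rfl⟩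
    · refine ⟨Point.some x y h + H.T, ?_, Or.inr ?_⟩
      · by_cases hx : x = e
        · subst hx
          left
          rw [H.eq_T h, H.T_add_T]
        · obtain ⟨x', y', h', hadd, hξ, hx', ht⟩ :=
            tw_add_T_w H.nonsing H.two_tors H.b_ne h hx
          have hD : x - e ≠ 0 := sub_ne_zero.mpr hx
          have hD' : x' - e ≠ 0 := sub_ne_zero.mpr hx'
          have hval : v (x' - e) * v (x - e) = v (twB W e yT) := by rw [← map_mul, hξ]
          have hpos : 0 < v (x - e) := zero_lt_iff.mpr ((v.ne_zero_iff).mpr hD)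
          have hpos' : 0 < v (x' - e) := zero_lt_iff.mpr ((v.ne_zero_iff).mpr hD')
          right
          refine ⟨x', y', h', hadd, ?_⟩
          by_cases hT : v (x - e) ≤ v (twB W e yT)
          · exact Or.inl (tr_aux_ge hval hpos hT)
          · right
            rw [not_le] at hT hE
            have hns : ¬ v (twW e yT x y - τ) < 1 := fun h' => hs ⟨hT, h'⟩
            rcases tw_sign_pt H h hT hE with ⟨s1, _⟩ | ⟨s1, _⟩
            · exact absurd s1 hns
            · exact ⟨tr_aux_gt hval hpos' hE, tr_aux_lt hval hT,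
                by rw [ht, tw_val_flip]; exact s1⟩
      · rw [add_assoc, H.T_add_T, add_zero]

/-! ### The sum of two good points -/

omit [DecidableEq F] in
lemma tw_good_ne {b x y : F}
    (hP : 1 ≤ v (x - e) ∨
      (v b < v (x - e) ∧ v (x - e) < 1 ∧ v (twW e yT x y - τ) < 1)) : x ≠ e := by
  rintro rfl
  rw [sub_self, map_zero] at hP
  rcases hP with h | ⟨h, -, -⟩
  · exact absurd h (not_le.mpr zero_lt_one)
  · exact not_lt_zero h

theorem twC_add_good (H : TwHyp v W e yT τ) {P Q : W.Point} (hP : TwGood v W e yT τ P)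
    (hQ : TwGood v W e yT τ Q) :
    twC v W e yT τ (P + Q) = twC v W e yT τ P * twC v W e yT τ Q ∨
      twC v W e yT τ (P + Q) = (twC v W e yT τ P * twC v W e yT τ Q)⁻¹ := by
  rcases hP with rfl | ⟨x₁, y₁, h₁, rfl, hP⟩
  · left; rw [zero_add, twC_zero, one_mul]
  rcases hQ with rfl | ⟨x₂, y₂, h₂, rfl, hQ⟩
  · left; rw [add_zero, twC_zero, mul_one]
  by_cases hxy : x₁ = x₂ ∧ y₁ = W.negY x₂ y₂
  · left
    have hneg : Point.some x₂ y₂ h₂ = -Point.some x₁ y₁ h₁ := by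
      obtain ⟨rfl, rfl⟩ := hxy
      rw [Point.neg_some]
      congr 1
      rw [negY_negY]
    rw [hneg, add_neg_cancel, twC_zero, twC_neg H, mul_inv_cancel]
  · have hx₁ : x₁ ≠ e := tw_good_ne hP
    have hx₂ : x₂ ≠ e := tw_good_ne hQ
    have hD₁ : x₁ - e ≠ 0 := sub_ne_zero.mpr hx₁
    have hD₂ : x₂ - e ≠ 0 := sub_ne_zero.mpr hx₂
    obtain ⟨x₃, y₃, h₃, hadd, hU⟩ := tw_add_w H.pt H.two_tors h₁ h₂ hx₁ hx₂ hxy
    rw [hadd]
    have hw1 := tw_W_sq H.pt H.two_tors h₁.1 hx₁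
    have hw2 := tw_W_sq H.pt H.two_tors h₂.1 hx₂
    have hbpos := H.b_pos
    rcases hP with hE₁ | ⟨a1, b1, s1⟩ <;> rcases hQ with hE₂ | ⟨a2, b2, s2⟩
    · -- E + E
      have h3 := tw_EE v H.a1_le H.A_le H.b_lt hw1 hw2 hU hE₁ hE₂
      left
      rw [twC_E h₃ h3, twC_E h₁ hE₁, twC_E h₂ hE₂, one_mul]
    · -- E + N
      have h3 := tw_EN v H.a1_le H.A_le H.tau H.disc H.b_lt hw1 hw2 hU hE₁ a2 b2 s2
      have hx₃ : x₃ ≠ e := tr_ne_of_lt (h3 ▸ a2)
      rw [twC_E h₁ hE₁, twC_Np h₂ a2 b2 s2, one_mul,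
        ← trK_eq_of_val_eq v _ (sub_ne_zero.mpr hx₃) hD₂ h3]
      exact twC_N_or h₃ (h3 ▸ a2) (h3 ▸ b2)
    · -- N + E
      have hU' : (x₃ - e) * ((x₂ - e) * (x₁ - e)) *
          (twW e yT x₂ y₂ + twW e yT x₁ y₁ + W.a₁) ^ 2 =
          ((x₂ - e) * (x₁ - e) - twB W e yT) ^ 2 := by
        rw [mul_comm (x₂ - e), add_comm (twW e yT x₂ y₂)]; exact hU
      have h3 := tw_EN v H.a1_le H.A_le H.tau H.disc H.b_lt hw2 hw1 hU' hE₂ a1 b1 s1
      have hx₃ : x₃ ≠ e := tr_ne_of_lt (h3 ▸ a1)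
      rw [twC_E h₂ hE₂, twC_Np h₁ a1 b1 s1, mul_one,
        ← trK_eq_of_val_eq v _ (sub_ne_zero.mpr hx₃) hD₁ h3]
      exact twC_N_or h₃ (h3 ▸ a1) (h3 ▸ b1)
    · -- N + N
      obtain ⟨c1, c2, c3⟩ := tw_NN v H.disc H.b_ne hU a1 a2 s1 s2
      have hD₁₂ : (x₁ - e) * (x₂ - e) ≠ 0 := mul_ne_zero hD₁ hD₂
      rw [twC_Np h₁ a1 b1 s1, twC_Np h₂ a2 b2 s2, ← trK_mul v _ hD₁ hD₂]
      rcases lt_trichotomy (v (twB W e yT)) (v ((x₁ - e) * (x₂ - e))) with hlt | heq | hgt
      · have h3 : v (x₃ - e) = v ((x₁ - e) * (x₂ - e)) := by rw [map_mul]; exact c1 hlt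
        have hlt1 : v ((x₁ - e) * (x₂ - e)) < 1 := by
          rw [map_mul]
          calc v (x₁ - e) * v (x₂ - e) ≤ v (x₁ - e) * 1 := mul_le_mul_right (le_of_lt b2) _
            _ = v (x₁ - e) := mul_one _
            _ < 1 := b1
        have hx₃ : x₃ ≠ e := tr_ne_of_lt (h3 ▸ hlt)
        rw [← trK_eq_of_val_eq v _ (sub_ne_zero.mpr hx₃) hD₁₂ h3]
        exact twC_N_or h₃ (h3 ▸ hlt) (h3 ▸ hlt1)
      · left
        rw [twC_T H h₃ (c3 heq.symm)]
        exact trK_eq_of_val_eq v _ H.b_ne hD₁₂ heq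
      · have h3 : v (x₃ - e) * v ((x₁ - e) * (x₂ - e)) = v (twB W e yT) ^ 2 := by
          rw [map_mul]; exact c2 hgt
        have hgt1 : v (twB W e yT) ^ 2 < v ((x₁ - e) * (x₂ - e)) := by
          rw [map_mul, pow_two]
          exact mul_lt_mul'' a1 a2 zero_le zero_le
        have g1 : v (twB W e yT) < v (x₃ - e) := tr_aux_sq_gt h3 hbpos hgt
        have g2 : v (x₃ - e) < 1 := tr_aux_sq_lt h3 hgt1
        have hx₃ : x₃ ≠ e := tr_ne_of_lt g1
        have hk : trK v (twB W e yT) (x₃ - e) =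
            (trK v (twB W e yT) ((x₁ - e) * (x₂ - e)))⁻¹ :=
          trK_eq_inv_of_mul v H.b_ne (sub_ne_zero.mpr hx₃) hD₁₂ h3
        rcases twC_N_or (τ := τ) h₃ g1 g2 with h | h
        · right; rw [h, hk]
        · left; rw [h, hk, inv_inv]

/-- The sign-ambiguous additivity of the component map. -/
theorem twC_add_or (H : TwHyp v W e yT τ) (P Q : W.Point) :
    twC v W e yT τ (P + Q) = twC v W e yT τ P * twC v W e yT τ Q ∨
      twC v W e yT τ (P + Q) = (twC v W e yT τ P * twC v W e yT τ Q)⁻¹ := by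
  obtain ⟨P₀, gP, hP⟩ := tw_exists_good H P
  obtain ⟨Q₀, gQ, hQ⟩ := tw_exists_good H Q
  have key := twC_add_good H gP gQ
  obtain ⟨k1, k2, k3⟩ := tr_grp_aux (trK_b_mul_self v (twB W e yT)) key
  rcases hP with rfl | rfl <;> rcases hQ with rfl | rfl
  · exact key
  · rw [← add_assoc, twC_add_T H, twC_add_T H]
    exact k1
  · rw [add_right_comm, twC_add_T H, twC_add_T H]
    exact k2
  · have : P₀ + H.T + (Q₀ + H.T) = P₀ + Q₀ := by
      rw [add_add_add_comm, H.T_add_T, add_zero]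
    rw [this, twC_add_T H, twC_add_T H]
    exact k3

/-- **The component map is a homomorphism.** -/
theorem twC_add (H : TwHyp v W e yT τ) (P Q : W.Point) :
    twC v W e yT τ (P + Q) = twC v W e yT τ P * twC v W e yT τ Q :=
  gl_map_add (twC v W e yT τ) (twC_neg H) (twC_add_or H) P Q

theorem twC_sub (H : TwHyp v W e yT τ) (P Q : W.Point) :
    twC v W e yT τ (P - Q) = twC v W e yT τ P * (twC v W e yT τ Q)⁻¹ :=
  gl_map_sub (twC v W e yT τ) (twC_neg H) (twC_add_or H) P Q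

theorem twC_nsmul (H : TwHyp v W e yT τ) (n : ℕ) (P : W.Point) :
    twC v W e yT τ (n • P) = twC v W e yT τ P ^ n :=
  gl_map_nsmul (twC v W e yT τ) twC_zero (twC_neg H) (twC_add_or H) n P

end comp

end Fermat.Agent.S13
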